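import Fermat.Agent.LT.T6.H277.OrbEllSpec

/-!
# Row LT, tower T6, sub-leaf T6.13.2.2 `H277.DiscUnitC` (helper926), OFF-MAIN

`discUnitC_926 : Fermat.Agent.LT.T6.H277.DiscUnitC`, verbatim the Prop of
`LT/T6/H277/OrbEllSpec.lean` (helper277@b9ce39e0d, sha256 7b0956b2baf7cad6, byte-identical copy).

An integral quadratic polynomial `b² - t b + n` over a local field without root modulo the
maximal ideal has a unit discriminant.
* `v 2 = 1`: `t² - 4n = -4 χ(t/2)`.
* `v 2 < 1`: if `v t = 1` then `v (t² - 4n) = v (t²) = 1`.  If `v t < 1`: on the finite system `T`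
  of representatives of the residue field, `x ↦ rep (x²)` is injective
  (`x² - y² = (x - y) (x - y + 2 y)`), hence surjective, so there is `b ∈ T` with
  `v (b² + n) < 1`, and then `v (χ b) < 1`: contradiction.
-/

set_option autoImplicit false

noncomputable section

namespace Fermat.Agent.LT.T6.H926

open Fermat.Agent.LT.T6 Fermat.Agent.LT.T6.H277

variable {k : Type} [Field k] [Valued k Γ₀]

/-- `v 2 ≤ 1`. -/
lemma v_two_le_one926 : Valued.v (2 : k) ≤ (1 : Γ₀) := by
  have h : (2 : k) = 1 + 1 := by norm_num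
  rw [h]
  calc Valued.v ((1 : k) + 1) ≤ max (Valued.v (1 : k)) (Valued.v (1 : k)) :=
        Valuation.map_add _ _ _
    _ = 1 := by simp

/-- The sum of two elements of valuation `< 1` has valuation `< 1`. -/
lemma v_add_lt_one926 {x y : k} (hx : Valued.v x < (1 : Γ₀)) (hy : Valued.v y < (1 : Γ₀)) :
    Valued.v (x + y) < (1 : Γ₀) :=
  lt_of_le_of_lt (Valuation.map_add _ _ _) (max_lt hx hy)

/-- The difference of two elements of valuation `< 1` has valuation `< 1`. -/
lemma v_sub_lt_one926 {x y : k} (hx : Valued.v x < (1 : Γ₀)) (hy : Valued.v y < (1 : Γ₀)) :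
    Valued.v (x - y) < (1 : Γ₀) :=
  lt_of_le_of_lt (Valuation.map_sub _ _ _) (max_lt hx hy)

/-- A product of an element of valuation `< 1` and an integral element has valuation `< 1`. -/
lemma v_mul_lt_one926 {x y : k} (hx : Valued.v x < (1 : Γ₀)) (hy : Valued.v y ≤ (1 : Γ₀)) :
    Valued.v (x * y) < (1 : Γ₀) := by
  rw [map_mul]
  calc Valued.v x * Valued.v y ≤ Valued.v x * 1 := mul_le_mul' le_rfl hy
    _ = Valued.v x := mul_one _
    _ < 1 := hx

/-- **T6.13.2.2 (DiscUnit)**, verbatim `H277.DiscUnitC`. -/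
theorem discUnitC_926 : DiscUnitC := by
  intro k _ _ q hk t n ht hn hirr
  have h2le : Valued.v (2 : k) ≤ (1 : Γ₀) := v_two_le_one926
  rcases lt_or_eq_of_le h2le with h2 | h2
  · -- residue characteristic two
    have h4n : Valued.v (4 * n : k) < (1 : Γ₀) := by
      have h4 : (4 : k) = 2 * 2 := by norm_num
      rw [h4, mul_assoc]
      exact v_mul_lt_one926 h2 (by
        rw [map_mul]
        calc Valued.v (2 : k) * Valued.v n ≤ 1 * 1 := mul_le_mul' h2le hn
          _ = 1 := mul_one _)
    rcases lt_or_eq_of_le ht with ht1 | ht1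
    · -- `v t < 1`: contradiction
      exfalso
      obtain ⟨T, -, hTint, hTdist, hTrep⟩ := hk.residue
      have hsq_int : ∀ x : k, Valued.v x ≤ (1 : Γ₀) → Valued.v (x ^ 2) ≤ (1 : Γ₀) := by
        intro x hx
        rw [map_pow]
        exact pow_le_one' hx 2
      have hf : ∀ x : T, ∃ r : T, Valued.v ((x : k) ^ 2 - (r : k)) < (1 : Γ₀) := by
        intro x
        obtain ⟨r, hr, h⟩ := hTrep ((x : k) ^ 2) (hsq_int _ (hTint x x.2))
        exact ⟨⟨r, hr⟩, h⟩
      choose f hf using hf
      have hinj : Function.Injective f := by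
        intro x y hxy
        by_contra hne
        have hne' : (x : k) ≠ (y : k) := fun h => hne (Subtype.ext h)
        have hd : Valued.v ((x : k) - (y : k)) = (1 : Γ₀) := hTdist x x.2 y y.2 hne'
        have h1 : Valued.v ((x : k) ^ 2 - (y : k) ^ 2) < (1 : Γ₀) := by
          have e : (x : k) ^ 2 - (y : k) ^ 2
              = ((x : k) ^ 2 - (f x : k)) - ((y : k) ^ 2 - (f y : k)) := by
            rw [hxy]; ring
          rw [e]
          exact v_sub_lt_one926 (hf x) (hf y)
        have h2y : Valued.v ((2 : k) * (y : k)) < (1 : Γ₀) := v_mul_lt_one926 h2 (hTint y y.2)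
        have h3 : Valued.v ((x : k) - (y : k) + 2 * (y : k)) = (1 : Γ₀) := by
          rw [Valuation.map_add_eq_of_lt_left _ (by rw [hd]; exact h2y), hd]
        have e2 : (x : k) ^ 2 - (y : k) ^ 2
            = ((x : k) - (y : k)) * ((x : k) - (y : k) + 2 * (y : k)) := by ring
        rw [e2, map_mul, hd, h3, mul_one] at h1
        exact lt_irrefl _ h1
      have hsurj : Function.Surjective f := Finite.injective_iff_surjective.mp hinj
      obtain ⟨r₀, hr₀, hr₀n⟩ := hTrep (-n) (by rw [Valuation.map_neg]; exact hn)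
      obtain ⟨x, hx⟩ := hsurj ⟨r₀, hr₀⟩
      have hxr : Valued.v ((x : k) ^ 2 - r₀) < (1 : Γ₀) := by
        have := hf x
        rw [hx] at this
        exact this
      have hxn : Valued.v ((x : k) ^ 2 + n) < (1 : Γ₀) := by
        have e : (x : k) ^ 2 + n = ((x : k) ^ 2 - r₀) - (-n - r₀) := by ring
        rw [e]
        exact v_sub_lt_one926 hxr hr₀n
      have hchi : Valued.v (chi277 t n (x : k)) < (1 : Γ₀) := by
        have e : chi277 t n (x : k) = ((x : k) ^ 2 + n) - t * (x : k) := by
          unfold chi277; ring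
        rw [e]
        exact v_sub_lt_one926 hxn (v_mul_lt_one926 ht1 (hTint x x.2))
      rw [hirr (x : k) (hTint x x.2)] at hchi
      exact lt_irrefl _ hchi
    · -- `v t = 1`
      have ht2 : Valued.v (t ^ 2) = (1 : Γ₀) := by rw [map_pow, ht1, one_pow]
      rw [Valuation.map_sub_eq_of_lt_left _ (by rw [ht2]; exact h4n), ht2]
  · -- `v 2 = 1`
    have h2ne : (2 : k) ≠ 0 := by
      intro h
      rw [h, map_zero] at h2
      exact zero_ne_one h2
    have hb : Valued.v (t / 2) ≤ (1 : Γ₀) := by
      rw [map_div₀, h2, div_one]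
      exact ht
    have hc := hirr (t / 2) hb
    have e : t ^ 2 - 4 * n = -(4 * chi277 t n (t / 2)) := by
      unfold chi277
      field_simp
      ring
    have h4 : Valued.v (4 : k) = (1 : Γ₀) := by
      have h4' : (4 : k) = 2 * 2 := by norm_num
      rw [h4', map_mul, h2, mul_one]
    rw [e, Valuation.map_neg, map_mul, h4, hc, mul_one]

end Fermat.Agent.LT.T6.H926

end
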